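import Mathlib
import Fermat.Agent.LT.T6.Spec

/-!
# Row LT, tower T6, sub-leaf T6.17 `SplitInt2C` + `SplitInt3C` (helper904)

OFF-MAIN.  Split places in integral form ([L] §8): on any locally compact group with a left Haar
measure, by left invariance of the measure (no hypothesis on the functions).
-/

set_option autoImplicit false

open MeasureTheory

noncomputable section

namespace Fermat.Agent.LT.T6.H904

open Fermat.Agent.LT.T6

/-- One step: the substitution `h = a * x`. -/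
theorem step904 {H : Type} [Group H] [TopologicalSpace H] [IsTopologicalGroup H]
    [MeasurableSpace H] [BorelSpace H] (μ : Measure H) [μ.IsMulLeftInvariant]
    (φ ψ : H → ℂ) (a b : H) :
    ∫ x, φ (a * x) * ψ (x⁻¹ * b) ∂μ = convInt μ φ ψ (a * b) := by
  unfold convInt
  have h := integral_mul_left_eq_self (μ := μ) (fun h : H => φ h * ψ (h⁻¹ * (a * b))) a
  rw [← h]
  refine integral_congr_ae (Filter.Eventually.of_forall fun x => ?_)
  simp only [mul_inv_rev, mul_assoc, inv_mul_cancel_left]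

/-- **T6.17, `l = 2`.** -/
theorem splitInt2 : SplitInt2C := by
  intro H _ _ _ _ _ _ μ _ φ₀ φ₁ δ₀ δ₁ x₀
  have h := step904 μ φ₀ φ₁ (x₀⁻¹ * δ₀) (δ₁ * x₀)
  have e1 : x₀⁻¹ * δ₀ * (δ₁ * x₀) = x₀⁻¹ * (δ₀ * δ₁) * x₀ := by simp only [mul_assoc]
  rw [e1] at h
  rw [← h]
  refine integral_congr_ae (Filter.Eventually.of_forall fun x => ?_)
  simp only [mul_assoc]

/-- **T6.17, `l = 3`.** -/
theorem splitInt3 : SplitInt3C := by
  intro H _ _ _ _ _ _ μ _ φ₀ φ₁ φ₂ δ₀ δ₁ δ₂ x₀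
  have inner : ∀ x₁ : H, ∫ x₂, φ₁ (x₁⁻¹ * δ₁ * x₂) * φ₂ (x₂⁻¹ * δ₂ * x₀) ∂μ
      = convInt μ φ₁ φ₂ (x₁⁻¹ * (δ₁ * δ₂ * x₀)) := by
    intro x₁
    have h := step904 μ φ₁ φ₂ (x₁⁻¹ * δ₁) (δ₂ * x₀)
    have e1 : x₁⁻¹ * δ₁ * (δ₂ * x₀) = x₁⁻¹ * (δ₁ * δ₂ * x₀) := by simp only [mul_assoc]
    rw [e1] at h
    rw [← h]
    refine integral_congr_ae (Filter.Eventually.of_forall fun x => ?_)
    simp only [mul_assoc]
  have h := step904 μ φ₀ (convInt μ φ₁ φ₂) (x₀⁻¹ * δ₀) (δ₁ * δ₂ * x₀)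
  have e2 : x₀⁻¹ * δ₀ * (δ₁ * δ₂ * x₀) = x₀⁻¹ * (δ₀ * δ₁ * δ₂) * x₀ := by simp only [mul_assoc]
  rw [e2] at h
  rw [← h]
  refine integral_congr_ae (Filter.Eventually.of_forall fun x => ?_)
  simp only [inner]

end Fermat.Agent.LT.T6.H904

end
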