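import Mathlib
import Fermat.Agent.LT.T6.H626.FamAlg
import Fermat.Agent.LT.T6.H830.HCTransC
import Fermat.Agent.LT.T6.H841.WInt

/-!
# Row LT, tower T6, sub-leaf T6.20a.9 `F0AbelOfC626` (helper904, registry row 1690)

OFF-MAIN.  Cut: `LT/T6/H626/AbelCut.lean` of helper626 (byte-identical copy, sha256 6a4d529b)
and `H626/FamAlg.lean` (9c407f7e).  Assets (byte-identical copies): `LT/T6/H830/HCTransC.lean`
of helper830 (c283e776: `continuous_toGL830`, `rhoC_bC_zero830`, `continuous_profile830`,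
`hasCompactSupport_profile830`), `LT/T6/H841/WInt.lean` of helper841 (14e77825: `rhoC_bC841`,
`norm_det_bC841`).

`f0AbelOfC904 : H626.F0AbelOfC626` VERBATIM: the Abel relation for the closed form of weight `0`.

For `y = !![a, a x; 0, b]`: `det y = a b`, `x_v² = A² + (a/(4b)) x² + v²/2`,
`A = (a + b)/(2 √(ab))`.  With `e^ζ = √(ab)`, `e^r = √(a/b)` and the profile
`Φ(X) = φ(bC ζ 0 √(2 (max X 1 - 1)))` (an element with `|det| = e^ζ`, `rhoC = max X 1`):
`φ(M_v(y)) = Φ(x_v)` and `φ(bC ζ u 0) = Φ(cosh u)` (`CartanCC`).  The left side is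
`(√2 c/4) ∫∫ Φ(x_v)/x_v dv dx = 2π c √(b/a) ∫_{X > A} Φ` (`RadInt0C626`), the right side is
`c ∫_ℂ φ(bC ζ r w) dw = 2π c e^{-r} ∫_{u > |r|} Φ(cosh u) sinh u du` (`WIntCC` with `Ψ = 1`), and
`X = cosh u`, `cosh r = A`.
-/

set_option autoImplicit false

open scoped Matrix
open MeasureTheory

noncomputable section

namespace Fermat.Agent.LT.T6.H904

open Fermat.Agent.LT.T6 Fermat.Agent.LT.T6.H626 Fermat.Agent.LT.T6.H830

/-! ## 1. The profile -/

/-- The parameter `√(2 (max X 1 - 1))`. -/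
def profT904 (X : ℝ) : ℝ := Real.sqrt (2 * (max X 1 - 1))

theorem continuous_profT904 : Continuous profT904 := by
  unfold profT904
  fun_prop

theorem profT_sq904 (X : ℝ) : profT904 X ^ 2 = 2 * (max X 1 - 1) := by
  unfold profT904
  rw [Real.sq_sqrt]
  have : (1 : ℝ) ≤ max X 1 := le_max_right _ _
  linarith

/-- The profile `Φ(X) = φ(bC ζ 0 √(2 (max X 1 - 1)))`. -/
def prof904 (φ : GL (Fin 2) ℂ → ℂ) (ζ : ℝ) (X : ℝ) : ℂ :=
  φ (bC ζ 0 ((profT904 X : ℝ) : ℂ))

theorem continuous_bC_w904 (ζ r : ℝ) : Continuous fun w : ℂ => bC ζ r w := by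
  apply continuous_toGL830
  simp only [coe_bC830]
  refine continuous_matrix fun i j => ?_
  fin_cases i <;> fin_cases j <;> simp <;> fun_prop

theorem continuous_prof904 {φ : GL (Fin 2) ℂ → ℂ} (hφ : IsArchTestC φ) (ζ : ℝ) :
    Continuous (prof904 φ ζ) :=
  hφ.cont.comp ((continuous_bC_w904 ζ 0).comp
    (Complex.continuous_ofReal.comp continuous_profT904))

theorem rhoC_profEl904 (ζ X : ℝ) :
    rhoC (bC ζ 0 ((profT904 X : ℝ) : ℂ)) = max X 1 := by
  rw [H841.rhoC_bC841, Real.cosh_zero, Real.exp_zero, Complex.norm_real, Real.norm_eq_abs,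
    sq_abs, profT_sq904]
  ring

/-- The profile vanishes for large `X`. -/
theorem prof_eq_zero904 {φ : GL (Fin 2) ℂ → ℂ} (hφ : IsArchTestC φ) (ζ : ℝ) :
    ∃ R : ℝ, ∀ X : ℝ, R < X → prof904 φ ζ X = 0 := by
  obtain ⟨M, hM⟩ := (hφ.supp.isCompact.bddAbove_image continuous_rhoC830.continuousOn)
  have hM' : ∀ g, φ g ≠ 0 → rhoC g ≤ M := fun g hg =>
    hM ⟨g, subset_tsupport _ hg, rfl⟩
  refine ⟨max M 1, fun X hX => ?_⟩
  by_contra hne
  have h1 := hM' _ hne
  rw [rhoC_profEl904] at h1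
  have h2 : M < X := lt_of_le_of_lt (le_max_left _ _) hX
  have h3 : X ≤ max X 1 := le_max_left _ _
  linarith

/-- `φ` at an element with `|det| = e^ζ` is the profile at `rhoC`. -/
theorem phi_eq_prof904 (hC : CartanCC) {φ : GL (Fin 2) ℂ → ℂ} (hφ : IsArchTestC φ) (ζ : ℝ)
    (y : GL (Fin 2) ℂ) (hd : ‖(y : Matrix (Fin 2) (Fin 2) ℂ).det‖ = Real.exp ζ) :
    φ y = prof904 φ ζ (rhoC y) := by
  have h1 : rhoC (bC ζ 0 ((profT904 (rhoC y) : ℝ) : ℂ)) = rhoC y := by
    rw [rhoC_profEl904, max_eq_left (one_le_rhoC830 y)]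
  obtain ⟨k, k', hk, hk', e⟩ := hC (bC ζ 0 ((profT904 (rhoC y) : ℝ) : ℂ)) y
    (by rw [H841.norm_det_bC841, hd]) h1
  unfold prof904
  conv_lhs => rw [e]
  rw [hφ.right k' _ hk', hφ.left k _ hk]

theorem profile_eq_prof904 (hC : CartanCC) {φ : GL (Fin 2) ℂ → ℂ} (hφ : IsArchTestC φ)
    (ζ u : ℝ) : φ (bC ζ u 0) = prof904 φ ζ (Real.cosh u) := by
  rw [phi_eq_prof904 hC hφ ζ (bC ζ u 0) (H841.norm_det_bC841 ζ u 0), rhoC_bC_zero830]

/-! ## 2. Integrability and the substitution `X = cosh u` -/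

theorem integrableOn_Ici_of_zero904 {g : ℝ → ℂ} (hg : Continuous g) {R : ℝ}
    (h0 : ∀ X : ℝ, R < X → g X = 0) (A : ℝ) : IntegrableOn g (Set.Ici A) := by
  have h1 : IntegrableOn g (Set.Icc A (max A R)) := hg.integrableOn_Icc
  have h2 : IntegrableOn g (Set.Ioi (max A R)) := by
    refine (integrableOn_zero (s := Set.Ioi (max A R))).congr_fun ?_ measurableSet_Ioi
    intro x hx
    exact (h0 x (lt_of_le_of_lt (le_max_right _ _) hx)).symm
  refine (h1.union h2).mono_set ?_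
  intro x hx
  by_cases hxR : x ≤ max A R
  · exact Or.inl ⟨hx, hxR⟩
  · exact Or.inr (not_le.1 hxR)

theorem tendsto_cosh_atTop904 : Filter.Tendsto Real.cosh Filter.atTop Filter.atTop := by
  have h1 : Filter.Tendsto (fun x : ℝ => (x + 1) / 2) Filter.atTop Filter.atTop :=
    (Filter.tendsto_atTop_add_const_right _ 1 Filter.tendsto_id).atTop_div_const two_pos
  refine Filter.tendsto_atTop_mono (fun x => ?_) h1
  rw [Real.cosh_eq]
  have h2 := Real.add_one_le_exp x
  have h3 := Real.exp_pos (-x)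
  linarith

/-- The substitution `X = cosh u` on `(ρ, ∞)`, `ρ ≥ 0`. -/
theorem integral_cosh_subst904 {g : ℝ → ℂ} (hg : Continuous g) {R : ℝ}
    (h0 : ∀ X : ℝ, R < X → g X = 0) (ρ : ℝ) :
    (∫ u in Set.Ioi ρ, g (Real.cosh u) * ((Real.sinh u : ℝ) : ℂ))
      = ∫ X in Set.Ioi (Real.cosh ρ), g X := by
  have hsub := integral_deriv_smul_comp_Ioi (f := Real.cosh) (f' := Real.sinh) (g := g) (a := ρ)
    Real.continuous_cosh.continuousOn tendsto_cosh_atTop904
    (fun x _ => (Real.hasDerivAt_cosh x).hasDerivWithinAt)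
    hg.continuousOn
    ((integrableOn_Ici_of_zero904 hg h0 1).mono_set (by
      rintro _ ⟨x, _, rfl⟩
      exact Real.one_le_cosh x))
    (by
      have hc : Continuous fun x : ℝ => Real.sinh x • (g ∘ Real.cosh) x :=
        Real.continuous_sinh.smul (hg.comp Real.continuous_cosh)
      -- zero for large `x`
      have hz : ∀ x : ℝ, max R 1 * 2 < x → Real.sinh x • (g ∘ Real.cosh) x = 0 := by
        intro x hx
        have h1 : R < Real.cosh x := by
          have h2 := Real.add_one_le_exp x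
          have h3 := Real.exp_pos (-x)
          have h4 : R ≤ max R 1 := le_max_left _ _
          have h5 : (1 : ℝ) ≤ max R 1 := le_max_right _ _
          rw [Real.cosh_eq]
          nlinarith
        show Real.sinh x • g (Real.cosh x) = 0
        rw [h0 _ h1, smul_zero]
      have h1 : IntegrableOn (fun x : ℝ => Real.sinh x • (g ∘ Real.cosh) x)
          (Set.Icc ρ (max ρ (max R 1 * 2))) := hc.integrableOn_Icc
      have h2 : IntegrableOn (fun x : ℝ => Real.sinh x • (g ∘ Real.cosh) x)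
          (Set.Ioi (max ρ (max R 1 * 2))) := by
        refine (integrableOn_zero (s := Set.Ioi (max ρ (max R 1 * 2)))).congr_fun ?_
          measurableSet_Ioi
        intro x hx
        exact (hz x (lt_of_le_of_lt (le_max_right _ _) hx)).symm
      refine (h1.union h2).mono_set ?_
      intro x hx
      by_cases hxR : x ≤ max ρ (max R 1 * 2)
      · exact Or.inl ⟨hx, hxR⟩
      · exact Or.inr (not_le.1 hxR))
  rw [← hsub]
  refine setIntegral_congr_fun measurableSet_Ioi fun u _ => ?_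
  show g (Real.cosh u) * ((Real.sinh u : ℝ) : ℂ) = Real.sinh u • g (Real.cosh u)
  rw [Complex.real_smul, mul_comm]

/-! ## 3. The algebra at `y = !![a, a x; 0, b]` -/

theorem det_upper904 (a b x : ℝ) : (!![a, a * x; 0, b] : Matrix (Fin 2) (Fin 2) ℝ).det = a * b := by
  rw [Matrix.det_fin_two_of]
  ring

theorem xv_upper904 {a b : ℝ} (ha : 0 < a) (hb : 0 < b) (x v : ℝ) :
    xv626 (rhoM626 !![a, a * x; 0, b]) v
      = Real.sqrt (((a + b) / (2 * Real.sqrt (a * b))) ^ 2 + a / (4 * b) * x ^ 2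
          + 1 / 2 * v ^ 2) := by
  have hab : 0 < a * b := mul_pos ha hb
  unfold xv626 rhoM626
  congr 1
  rw [trace_transpose_mul626, det_upper904, abs_of_pos hab, div_pow, mul_pow,
    Real.sq_sqrt hab.le]
  simp only [Matrix.of_apply, Matrix.cons_val', Matrix.cons_val_zero, Matrix.cons_val_one,
    Matrix.empty_val', Matrix.cons_val_fin_one]
  field_simp
  ring

/-! ## 4. The leaf -/

/-- **T6.20a.9** `F0AbelOfC626`, VERBATIM. -/
theorem f0AbelOfC904 : F0AbelOfC626 := by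
  intro hC hW hR c φ hφ a b ha hb u u' hu hu'
  have hab : 0 < a * b := mul_pos ha hb
  have hsa : 0 < Real.sqrt a := Real.sqrt_pos.2 ha
  have hsb : 0 < Real.sqrt b := Real.sqrt_pos.2 hb
  have hsa2 : Real.sqrt a * Real.sqrt a = a := Real.mul_self_sqrt ha.le
  have hsb2 : Real.sqrt b * Real.sqrt b = b := Real.mul_self_sqrt hb.le
  have hsab : Real.sqrt (a * b) = Real.sqrt a * Real.sqrt b := Real.sqrt_mul ha.le b
  set ζ : ℝ := Real.log (Real.sqrt a) + Real.log (Real.sqrt b) with hζ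
  set r : ℝ := Real.log (Real.sqrt a) - Real.log (Real.sqrt b) with hr
  have e1 : Real.exp ((ζ + r) / 2) = Real.sqrt a := by
    have : (ζ + r) / 2 = Real.log (Real.sqrt a) := by rw [hζ, hr]; ring
    rw [this, Real.exp_log hsa]
  have e2 : Real.exp ((ζ - r) / 2) = Real.sqrt b := by
    have : (ζ - r) / 2 = Real.log (Real.sqrt b) := by rw [hζ, hr]; ring
    rw [this, Real.exp_log hsb]
  have eζ : Real.exp ζ = Real.sqrt (a * b) := by
    rw [hζ, Real.exp_add, Real.exp_log hsa, Real.exp_log hsb, hsab]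
  have er : Real.exp r = Real.sqrt a / Real.sqrt b := by
    rw [hr, Real.exp_sub, Real.exp_log hsa, Real.exp_log hsb]
  have ern : Real.exp (-r) = Real.sqrt b / Real.sqrt a := by
    rw [Real.exp_neg, er, inv_div]
  have hcosh : Real.cosh r = (a + b) / (2 * Real.sqrt (a * b)) := by
    rw [Real.cosh_eq, er, ern, hsab]
    have key : (Real.sqrt a / Real.sqrt b + Real.sqrt b / Real.sqrt a) / 2
        = (Real.sqrt a * Real.sqrt a + Real.sqrt b * Real.sqrt b)
          / (2 * (Real.sqrt a * Real.sqrt b)) := by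
      field_simp
    rw [key, hsa2, hsb2]
  have hA : 0 < (a + b) / (2 * Real.sqrt (a * b)) := by positivity
  have hα : 0 < a / (4 * b) := by positivity
  have hβ : (0 : ℝ) < 1 / 2 := by norm_num
  -- the profile
  have hΦc := continuous_prof904 hφ ζ
  obtain ⟨R, hΦR⟩ := prof_eq_zero904 hφ ζ
  -- the right side
  have hu'eq : ∀ w : ℂ, u' w = bC ζ r w := by
    intro w
    apply Units.ext
    rw [hu' w, coe_bC830, e1, e2]
  have hRHS : (∫ w : ℂ, φ (u' w))
      = ((2 * Real.pi * Real.exp (-r) : ℝ) : ℂ) *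
        ∫ X in Set.Ioi ((a + b) / (2 * Real.sqrt (a * b))), prof904 φ ζ X := by
    have h1 := hW φ hφ (fun _ => 1) continuousOn_const ζ r
    simp only [mul_one] at h1
    simp only [hu'eq]
    rw [h1]
    congr 1
    have h2 := integral_cosh_subst904 hΦc hΦR |r|
    rw [Real.cosh_abs, hcosh] at h2
    rw [← h2]
    refine setIntegral_congr_fun measurableSet_Ioi fun t _ => ?_
    show φ (bC ζ t 0) * ((Real.sinh t : ℝ) : ℂ) = _
    rw [profile_eq_prof904 hC hφ]
  -- the left side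
  have hdet : ∀ x : ℝ, 0 < ((u x : GL (Fin 2) ℝ) : Matrix (Fin 2) (Fin 2) ℝ).det := by
    intro x
    rw [hu x, det_upper904]
    exact hab
  have hLHS : ∀ x : ℝ, abelF0_626 c φ (u x)
      = ((Real.sqrt 2 / 4 : ℝ) : ℂ) * c *
        ∫ v : ℝ, prof904 φ ζ (Real.sqrt (((a + b) / (2 * Real.sqrt (a * b))) ^ 2
            + a / (4 * b) * x ^ 2 + 1 / 2 * v ^ 2)) /
          ((Real.sqrt (((a + b) / (2 * Real.sqrt (a * b))) ^ 2
            + a / (4 * b) * x ^ 2 + 1 / 2 * v ^ 2) : ℝ) : ℂ) := by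
    intro x
    unfold abelF0_626
    rw [if_pos (hdet x)]
    congr 1
    refine integral_congr_ae (Filter.Eventually.of_forall fun v => ?_)
    obtain ⟨-, -, hrho, hnorm⟩ := famAlg626 _ (hdet x) v
    have hxv : xv626 (rhoR (u x)) v
        = Real.sqrt (((a + b) / (2 * Real.sqrt (a * b))) ^ 2 + a / (4 * b) * x ^ 2
          + 1 / 2 * v ^ 2) := by
      rw [rhoR_eq_rhoM626, hu x, xv_upper904 ha hb]
    have hd : ‖((toGLC626 (famMat626 ((u x : GL (Fin 2) ℝ) : Matrix (Fin 2) (Fin 2) ℝ) v)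
        : GL (Fin 2) ℂ) : Matrix (Fin 2) (Fin 2) ℂ).det‖ = Real.exp ζ := by
      rw [hnorm, hu x, det_upper904, eζ]
    show φ (toGLC626 (famMat626 ((u x : GL (Fin 2) ℝ) : Matrix (Fin 2) (Fin 2) ℝ) v)) /
        ((xv626 (rhoR (u x)) v : ℝ) : ℂ) = _
    rw [phi_eq_prof904 hC hφ ζ _ hd, hrho, ← rhoR_eq_rhoM626, hxv]
  simp only [hLHS]
  rw [integral_const_mul, hR (prof904 φ ζ) hΦc ⟨R, hΦR⟩ _ _ _ hA hα hβ, hRHS]
  -- the constants
  have hsq : Real.sqrt (a / (4 * b) * (1 / 2))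
      = Real.sqrt a / (2 * Real.sqrt 2 * Real.sqrt b) := by
    have h2 : Real.sqrt 2 * Real.sqrt 2 = 2 := Real.mul_self_sqrt (by norm_num)
    have key : (Real.sqrt a / (2 * Real.sqrt 2 * Real.sqrt b)) ^ 2
        = (Real.sqrt a * Real.sqrt a)
          / (4 * (Real.sqrt 2 * Real.sqrt 2) * (Real.sqrt b * Real.sqrt b)) := by
      rw [div_pow]
      congr 1 <;> ring
    have key2 : a / (4 * b) * (1 / 2) = (Real.sqrt a / (2 * Real.sqrt 2 * Real.sqrt b)) ^ 2 := by
      rw [key, hsa2, h2, hsb2]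
      field_simp
    rw [key2, Real.sqrt_sq (by positivity)]
  have hconst : Real.sqrt 2 / 4 * (2 * Real.pi / Real.sqrt (a / (4 * b) * (1 / 2)))
      = 2 * Real.pi * Real.exp (-r) := by
    have h2 : Real.sqrt 2 * Real.sqrt 2 = 2 := Real.mul_self_sqrt (by norm_num)
    rw [hsq, ern]
    have hs2 : 0 < Real.sqrt 2 := Real.sqrt_pos.2 (by norm_num)
    field_simp
    linear_combination (2 : ℝ) * h2
  rw [← hconst]
  push_cast
  ring

end Fermat.Agent.LT.T6.H904

end
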